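import Fermat.Agent.GAL.FF.DW.Defs

/-!
# RH leaf L2: `Lam k x` is the integral closure of `k[x]`, a finitely generated `k[x]`-module
-/

set_option autoImplicit false

namespace Fermat.Agent.GAL.FF.RH

open AlgebraicCurve Polynomial IntermediateField WithZero Module

variable {k F : Type*} [Field k] [Field F] [Algebra k F]

/-- `Lam k x` is the integral closure of `k[x]`. -/
theorem mem_Lam_iff_mem_integralClosure (x : F) (hx : Transcendental k x)
    [FiniteDimensional k⟮x⟯ F] [Algebra.IsSeparable k⟮x⟯ F] (f : F) :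
    f ∈ Lam k x ↔ f ∈ integralClosure (Algebra.adjoin k {x}) F := by
  sorry

/-- `Lam k x` is a finitely generated `k[x]`-module. -/
theorem exists_finset_span_Lam (x : F) (hx : Transcendental k x)
    [FiniteDimensional k⟮x⟯ F] [Algebra.IsSeparable k⟮x⟯ F] :
    ∃ s : Finset F, (∀ β ∈ s, β ∈ Lam k x) ∧
      ∀ f ∈ Lam k x, ∃ c : F → k[X], f = ∑ β ∈ s, aeval x (c β) * β := by
  sorry

end Fermat.Agent.GAL.FF.RH
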