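import Fermat.Agent.GAL.FF.DW.DedekindDual

/-!
# RH leaf E: Dedekind's different theorem `d ≥ e - 1`, with equality in the tame case
(pure Mathlib; residue degree one)
-/

set_option autoImplicit false

namespace Fermat.Agent.GAL.FF.RH

open IsDedekindDomain WithZero Module

variable (A K L : Type*) {B : Type*} [CommRing A] [Field K] [CommRing B] [Field L]
  [Algebra A K] [Algebra B L] [Algebra A B] [Algebra K L] [Algebra A L]
  [IsScalarTower A K L] [IsScalarTower A B L] [IsDedekindDomain A] [IsFractionRing A K]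
  [FiniteDimensional K L] [Algebra.IsSeparable K L] [IsIntegralClosure B A L]
  [IsFractionRing B L] [IsDedekindDomain B] [IsTorsionFree A B] [Module.Finite A B]

include K L in
/-- Dedekind: `d ≥ e - 1`. -/
theorem sub_one_le_diffExp {p : Ideal A} [p.IsMaximal] (hp : p ≠ ⊥) (w : HeightOneSpectrum B)
    [w.asIdeal.LiesOver p] : p.ramificationIdx' w.asIdeal - 1 ≤ diffExp A B w := by
  sorry

include K L in
/-- Tame case, residue degree one: `d = e - 1`. -/
theorem diffExp_eq_of_tame {p : Ideal A} [p.IsMaximal] (hp : p ≠ ⊥) (w : HeightOneSpectrum B)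
    [w.asIdeal.LiesOver p] (hf : p.inertiaDeg' w.asIdeal = 1)
    (htame : ((p.ramificationIdx' w.asIdeal : ℕ) : A ⧸ p) ≠ 0) :
    diffExp A B w = p.ramificationIdx' w.asIdeal - 1 := by
  sorry

end Fermat.Agent.GAL.FF.RH
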