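import Fermat.Agent.GAL.FF.DW.Lam
import Fermat.Agent.GAL.FF.DW.LamInt
import Fermat.Agent.GAL.FF.DW.Tame

/-!
# RH leaf B: different exponents on the chart `x ≠ ∞`, in terms of places
-/

set_option autoImplicit false

namespace Fermat.Agent.GAL.FF.RH

open AlgebraicCurve Polynomial IntermediateField WithZero Module

variable {k F : Type*} [Field k] [IsAlgClosed k] [Field F] [Algebra k F]

/-- **Chart lemma.** Different exponents `d P` at the places `P` with `x(P) ≠ ∞`. -/
theorem exists_dexp (x : F) (hx : Transcendental k x) [FiniteDimensional k⟮x⟯ F]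
    [Algebra.IsSeparable k⟮x⟯ F] :
    ∃ d : Place k F → ℕ,
      {P : Place k F | 0 ≤ P.ord x ∧ d P ≠ 0}.Finite ∧
      (∀ g : F, g ∈ LamDual k x ↔
        ∀ P : Place k F, 0 ≤ P.ord x → P.adicValuation g ≤ exp ((d P : ℕ) : ℤ)) ∧
      (∀ (P : Place k F) (c : k), 0 < P.ord (x - algebraMap k F c) →
        P.ord (x - algebraMap k F c) - 1 ≤ d P ∧
        ((((P.ord (x - algebraMap k F c)).toNat : ℕ) : k) ≠ 0 →
          (d P : ℤ) = P.ord (x - algebraMap k F c) - 1)) := by
  sorry

end Fermat.Agent.GAL.FF.RH
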