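import Fermat.Agent.GAL.FF.DW.Defs

/-!
# RH leaf A2: dimension count
-/

set_option autoImplicit false

namespace Fermat.Agent.GAL.FF.RH

open Polynomial Module

variable {k : Type*} [Field k] {V : Type*} [AddCommGroup V] [Module k[X] V] [Module k V]
  [IsScalarTower k k[X] V]

/-- `dim_k {∑ cᵢ vᵢ | deg cᵢ < μᵢ} = ∑ μᵢ` for a `k[X]`-linearly independent family `v`. -/
theorem finrank_eq_sum_of_forall_mem_iff {n : ℕ} (v : Fin n → V) (hv : LinearIndependent k[X] v)
    (μ : Fin n → ℕ) (S : Submodule k V)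
    (hS : ∀ f : V, f ∈ S ↔ ∃ c : Fin n → k[X], (∀ i, c i ∈ degreeLT k (μ i)) ∧ f = ∑ i, c i • v i) :
    finrank k S = ∑ i, μ i := by
  sorry

end Fermat.Agent.GAL.FF.RH
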