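import Mathlib

/-!
# RH leaf GD: the trace dual of a Dedekind extension in terms of valuations (pure Mathlib)
-/

set_option autoImplicit false

namespace Fermat.Agent.GAL.FF.RH

open IsDedekindDomain WithZero Module

variable (A K L B : Type*) [CommRing A] [Field K] [CommRing B] [Field L]
  [Algebra A K] [Algebra B L] [Algebra A B] [Algebra K L] [Algebra A L]
  [IsScalarTower A K L] [IsScalarTower A B L] [IsDomain A] [IsFractionRing A K]
  [FiniteDimensional K L] [Algebra.IsSeparable K L] [IsIntegralClosure B A L]
  [IsFractionRing B L] [IsIntegrallyClosed A] [IsDedekindDomain B] [IsTorsionFree A B]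

/-- The exponent of `w` in the different. -/
noncomputable def diffExp (w : HeightOneSpectrum B) : ℕ :=
  (Associates.mk w.asIdeal).count (Associates.mk (differentIdeal A B)).factors

variable {B} in
/-- membership in an ideal of a Dedekind domain via valuations. -/
theorem mem_inv_ideal_iff_valuation (I : Ideal B) (hI : I ≠ ⊥) (g : L) :
    (∀ a ∈ I, ∃ b : B, g * algebraMap B L a = algebraMap B L b) ↔
      ∀ w : HeightOneSpectrum B, w.valuation L g ≤
        exp (((Associates.mk w.asIdeal).count (Associates.mk I).factors : ℕ) : ℤ) := by
  sorry

/-- **GD.** `g` lies in the trace dual of `B` iff `ord_w g ≥ - diffExp w` for all `w`. -/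
theorem forall_trace_mem_iff_valuation (g : L) :
    (∀ b : B, Algebra.trace K L (g * algebraMap B L b) ∈ (algebraMap A K).range) ↔
      ∀ w : HeightOneSpectrum B, w.valuation L g ≤ exp ((diffExp A B w : ℕ) : ℤ) := by
  sorry

include K L in
/-- The different is non zero (version of `differentIdeal_ne_bot` for arbitrary fraction fields). -/
theorem differentIdeal_ne_bot_of : differentIdeal A B ≠ ⊥ := by
  sorry

include K L in
/-- The different has finitely many prime factors. -/
theorem finite_diffExp_ne_zero : {w : HeightOneSpectrum B | diffExp A B w ≠ 0}.Finite := by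
  sorry

include K L in
variable {B} in
/-- `diffExp` and divisibility. -/
theorem pow_dvd_differentIdeal_iff (w : HeightOneSpectrum B) (e : ℕ) :
    w.asIdeal ^ e ∣ differentIdeal A B ↔ e ≤ diffExp A B w := by
  sorry

end Fermat.Agent.GAL.FF.RH
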