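import Mathlib
import Fermat.Agent.GAL.FF.IsFF
import Fermat.Agent.Lib.RR.Main

/-!
# GAL-FF, chapter RH: Riemann-Hurwitz over `k(x)` for `genusFF`, any characteristic. Definitions.

`k` a field, `F / k` a field, `x : F`.  Everything is phrased inside `F`:

* `tr k x h`        : the trace `F → k(x)`, viewed in `F`;
* `Lam k x`         : functions regular at all places `P` with `x(P) ≠ ∞`  (= integral closure of `k[x]`);
* `Winf k x m`      : functions `f` with `ord_P f ≥ m * ord_P x` at all poles `P` of `x` (`= x ^ m B_∞`);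
* `LamDual k x`     : trace dual of `Lam` with respect to `k[x]`;
* `WinfDual k x m`  : `{g | tr (g * Winf 0) ⊆ Winf m}` (`= x ^ m` times the trace dual of `B_∞`);
* `Filt k V`        : abstract degree-type filtration on a `k[X]`-module.
-/

set_option autoImplicit false

namespace Fermat.Agent.GAL.FF.RH

open AlgebraicCurve Polynomial IntermediateField WithZero

section Abstract

/-- A degree-type filtration on a `k[X]`-module `V` (think: `W m = {f | N f ≤ m}` for a norm with
`N (s • f) = deg s + N f`). -/
structure Filt (k : Type*) [Field k] (V : Type*) [AddCommGroup V] [Module k[X] V] where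
  W : ℤ → AddSubgroup V
  mono : Monotone W
  exhaust : ∀ f : V, ∃ m : ℤ, f ∈ W m
  smul_mem_iff : ∀ s : k[X], s ≠ 0 → ∀ (m : ℤ) (f : V), s • f ∈ W (m + s.natDegree) ↔ f ∈ W m

end Abstract

variable (k : Type*) {F : Type*} [Field k] [Field F] [Algebra k F]

/-- The trace `F → k(x)`, viewed in `F`. -/
noncomputable def tr (x : F) (h : F) : F := algebraMap k⟮x⟯ F (Algebra.trace k⟮x⟯ F h)

/-- Functions regular at all places where `x` is regular. -/
def Lam (x : F) : Submodule k F where
  carrier := {f | ∀ P : Place k F, 0 ≤ P.ord x → P.adicValuation f ≤ 1}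
  zero_mem' := by
    intro P _
    simp
  add_mem' := by
    intro f g hf hg P hP
    exact (Valuation.map_add _ _ _).trans (max_le (hf P hP) (hg P hP))
  smul_mem' := by
    intro c f hf P hP
    show P.adicValuation (c • f) ≤ 1
    rw [Algebra.smul_def, map_mul]
    exact (mul_le_of_le_one_left' (P.adicValuation_algebraMap_le_one c)).trans (hf P hP)

/-- Functions `f` with `ord_P f ≥ m * ord_P x` at all poles `P` of `x`. -/
def Winf (x : F) (m : ℤ) : Submodule k F where
  carrier := {f | ∀ P : Place k F, P.ord x < 0 → P.adicValuation f ≤ exp (-(m * P.ord x))}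
  zero_mem' := by
    intro P _
    simp
  add_mem' := by
    intro f g hf hg P hP
    exact (Valuation.map_add _ _ _).trans (max_le (hf P hP) (hg P hP))
  smul_mem' := by
    intro c f hf P hP
    show P.adicValuation (c • f) ≤ _
    rw [Algebra.smul_def, map_mul]
    exact (mul_le_of_le_one_left' (P.adicValuation_algebraMap_le_one c)).trans (hf P hP)

variable {k}

theorem mem_Lam_iff {x f : F} :
    f ∈ Lam k x ↔ ∀ P : Place k F, 0 ≤ P.ord x → P.adicValuation f ≤ 1 := Iff.rfl

theorem mem_Winf_iff {x f : F} {m : ℤ} :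
    f ∈ Winf k x m ↔ ∀ P : Place k F, P.ord x < 0 → P.adicValuation f ≤ exp (-(m * P.ord x)) :=
  Iff.rfl

theorem tr_add (x f g : F) : tr k x (f + g) = tr k x f + tr k x g := by
  simp [tr]

theorem tr_smul (x : F) (c : k) (f : F) : tr k x (c • f) = c • tr k x f := by
  unfold tr
  rw [LinearMap.map_smul_of_tower, Algebra.smul_def, map_mul, Algebra.smul_def]
  rfl

theorem tr_zero (x : F) : tr k x 0 = 0 := by simp [tr]

variable (k)

/-- The trace dual of `Lam k x` with respect to `k[x]`. -/
def LamDual (x : F) : Submodule k F where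
  carrier := {g | ∀ f ∈ Lam k x, tr k x (g * f) ∈ (aeval x : k[X] →ₐ[k] F).range}
  zero_mem' := by
    intro f _
    rw [zero_mul, tr_zero]
    exact zero_mem _
  add_mem' := by
    intro g g' hg hg' f hf
    rw [add_mul, tr_add]
    exact add_mem (hg f hf) (hg' f hf)
  smul_mem' := by
    intro c g hg f hf
    rw [smul_mul_assoc, tr_smul]
    exact Subalgebra.smul_mem _ (hg f hf) c

/-- `x ^ m` times the trace dual of `B_∞ = Winf k x 0` with respect to `A_∞`. -/
def WinfDual (x : F) (m : ℤ) : Submodule k F where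
  carrier := {g | ∀ f ∈ Winf k x 0, tr k x (g * f) ∈ Winf k x m}
  zero_mem' := by
    intro f _
    rw [zero_mul, tr_zero]
    exact zero_mem _
  add_mem' := by
    intro g g' hg hg' f hf
    rw [add_mul, tr_add]
    exact add_mem (hg f hf) (hg' f hf)
  smul_mem' := by
    intro c g hg f hf
    rw [smul_mul_assoc, tr_smul]
    exact Submodule.smul_mem _ c (hg f hf)

variable {k}

theorem mem_LamDual_iff {x g : F} :
    g ∈ LamDual k x ↔ ∀ f ∈ Lam k x, tr k x (g * f) ∈ (aeval x : k[X] →ₐ[k] F).range := Iff.rfl

theorem mem_WinfDual_iff {x g : F} {m : ℤ} :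
    g ∈ WinfDual k x m ↔ ∀ f ∈ Winf k x 0, tr k x (g * f) ∈ Winf k x m := Iff.rfl

end Fermat.Agent.GAL.FF.RH
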