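import Fermat.Agent.GAL.FF.DW.Defs

/-!
# RH leaf A3: the trace-dual basis of a reduced basis is reduced for the dual filtration
-/

set_option autoImplicit false

namespace Fermat.Agent.GAL.FF.RH

open Polynomial Module

variable {k E F : Type*} [Field k] [Field E] [Field F] [Algebra k[X] E] [IsFractionRing k[X] E]
  [Algebra E F] [Algebra k[X] F] [IsScalarTower k[X] E F] [FiniteDimensional E F]
  [Algebra.IsSeparable E F]

/-- If `b` is orthogonal for `𝒲` with invariants `lam`, the trace-dual basis is orthogonal for the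
dual filtration with invariants `-lam`. -/
theorem dualBasis_mem_iff {n : ℕ} (𝒲 : Filt k F) (h1 : (1 : F) ∈ 𝒲.W 0) (h1' : (1 : F) ∉ 𝒲.W (-1))
    (b : Basis (Fin n) E F) (lam : Fin n → ℤ)
    (hb : ∀ (c : Fin n → k[X]) (m : ℤ),
      (∑ i, c i • b i) ∈ 𝒲.W m ↔ ∀ i, c i ∈ degreeLT k (m - lam i + 1).toNat)
    (c : Fin n → k[X]) (m : ℤ) :
    (∀ f ∈ 𝒲.W 0, algebraMap E F (Algebra.trace E F
        ((∑ i, c i • (Algebra.traceForm E F).dualBasis (traceForm_nondegenerate E F) b i) * f))
          ∈ 𝒲.W m) ↔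
      ∀ i, c i ∈ degreeLT k (m + lam i + 1).toNat := by
  sorry

end Fermat.Agent.GAL.FF.RH
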