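import Fermat.Agent.GAL.FF.DW.Defs

/-!
# RH leaf L: basic facts on `Lam`, `Winf`, `tr` (places of `F` versus the integral closure of `k[x]`)
-/

set_option autoImplicit false

namespace Fermat.Agent.GAL.FF.RH

open AlgebraicCurve Polynomial IntermediateField WithZero Module
open Fermat.Agent.Lib.RR

variable {k F : Type*} [Field k] [Field F] [Algebra k F]

/-- Order of a polynomial in `x` at a pole of `x`. -/
theorem ord_aeval_of_ord_neg (P : Place k F) {x : F} (hP : P.ord x < 0) {s : k[X]} (hs : s ≠ 0) :
    P.ord (aeval x s) = s.natDegree * P.ord x := by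
  sorry

/-- A polynomial in `x` is regular where `x` is. -/
theorem adicValuation_aeval_le_one (P : Place k F) {x : F} (hP : 0 ≤ P.ord x) (s : k[X]) :
    P.adicValuation (aeval x s) ≤ 1 := by
  sorry

/-- `tr` is `k(x)`-linear. -/
theorem tr_mul_of_mem (x : F) {r : F} (hr : r ∈ k⟮x⟯) (h : F) : tr k x (r * h) = r * tr k x h := by
  sorry

theorem tr_mem (x h : F) : tr k x h ∈ k⟮x⟯ := (Algebra.trace k⟮x⟯ F h).2

/-- `tr` only depends on the field `k(x)`. -/
theorem tr_inv (x h : F) : tr k x⁻¹ h = tr k x h := by
  sorry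

/-- A function regular outside the poles of `x` and vanishing at all poles of `x` is zero. -/
theorem eq_zero_of_mem_Lam_of_mem_Winf [IsAlgClosed k] [IsFF k F] {x : F} (hx : Transcendental k x)
    {f : F} (h1 : f ∈ Lam k x) (h2 : f ∈ Winf k x (-1)) : f = 0 := by
  sorry

theorem one_mem_Winf_zero (x : F) : (1 : F) ∈ Winf k x 0 := by
  intro P _
  simp

theorem one_notMem_Winf_neg_one [IsAlgClosed k] [IsFF k F] {x : F} (hx : Transcendental k x) :
    (1 : F) ∉ Winf k x (-1) := by
  intro h
  have h1 : (1 : F) ∈ Lam k x := by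
    intro P _
    simp
  exact one_ne_zero (eq_zero_of_mem_Lam_of_mem_Winf hx h1 h)

section Filt

variable [Algebra k[X] F]

/-- The filtration `Winf` as an abstract `Filt`. -/
noncomputable def filtInf [IsScalarTower k k[X] F] [HasPrincipalDivisors k F]
    (hinj : Function.Injective (algebraMap k[X] F)) : Filt k F where
  W m := (Winf k (algebraMap k[X] F X) m).toAddSubgroup
  mono := by
    sorry
  exhaust := by
    sorry
  smul_mem_iff := by
    sorry

@[simp] theorem mem_filtInf_W [IsScalarTower k k[X] F] [HasPrincipalDivisors k F]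
    (hinj : Function.Injective (algebraMap k[X] F)) (m : ℤ) (f : F) :
    f ∈ (filtInf (k := k) hinj).W m ↔ f ∈ Winf k (algebraMap k[X] F X) m := Iff.rfl

end Filt

end Fermat.Agent.GAL.FF.RH
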