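import Fermat.Agent.GAL.FF.DW.Lattice3

/-!
# RH leaf A4d: the two dimension formulas
`dim (Lam ⊓ Winf m) = ∑ (m - λᵢ + 1)⁺`, `dim (LamDual ⊓ WinfDual m) = ∑ (m + λᵢ + 1)⁺`.
-/

set_option autoImplicit false

namespace Fermat.Agent.GAL.FF.RH

open AlgebraicCurve Polynomial IntermediateField WithZero Module
open Fermat.Agent.Lib.RR

variable {k F : Type*} [Field k] [IsAlgClosed k] [Field F] [Algebra k F]

/-- **The two dimension formulas.** -/
theorem exists_lambda (x : F) (hx : Transcendental k x) [FiniteDimensional k⟮x⟯ F]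
    [Algebra.IsSeparable k⟮x⟯ F] :
    ∃ lam : Fin (finrank k⟮x⟯ F) → ℤ, ∀ m : ℤ,
      finrank k ↥(Lam k x ⊓ Winf k x m) = ∑ i, (m - lam i + 1).toNat ∧
      finrank k ↥(LamDual k x ⊓ WinfDual k x m) = ∑ i, (m + lam i + 1).toNat := by
  sorry

end Fermat.Agent.GAL.FF.RH
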