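import Fermat.Agent.GAL.FF.DW.Defs

/-!
# RH leaf A1: Dedekind-Weber reduced bases (abstract form)
-/

set_option autoImplicit false

namespace Fermat.Agent.GAL.FF.RH

open Polynomial Module

variable {k : Type*} [Field k] {V : Type*} [AddCommGroup V] [Module k[X] V]

/-- **Reduced basis.** A free `k[X]`-lattice `Λ` of rank `n` on which the filtration is separated
has a basis which is orthogonal for the filtration. -/
theorem exists_reduced_basis {n : ℕ} (𝒲 : Filt k V) (Λ : Submodule k[X] V)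
    (b₀ : Basis (Fin n) k[X] Λ) (m₀ : ℤ) (hsep : ∀ f ∈ Λ, f ∈ 𝒲.W m₀ → f = 0) :
    ∃ (b : Basis (Fin n) k[X] Λ) (lam : Fin n → ℤ), ∀ (c : Fin n → k[X]) (m : ℤ),
      (∑ i, c i • (b i : V)) ∈ 𝒲.W m ↔ ∀ i, c i ∈ degreeLT k (m - lam i + 1).toNat := by
  sorry

end Fermat.Agent.GAL.FF.RH
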