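import Fermat.Agent.GAL.FF.DW.Lam
import Fermat.Agent.GAL.FF.DW.LamInt
import Fermat.Agent.GAL.FF.DW.Reduced

/-!
# RH leaf A4a: a reduced basis of the integral closure of `k[X]` in `F`
-/

set_option autoImplicit false

namespace Fermat.Agent.GAL.FF.RH

open AlgebraicCurve Polynomial IntermediateField WithZero Module
open Fermat.Agent.Lib.RR

variable {k F : Type*} [Field k] [IsAlgClosed k] [Field F] [Algebra k F]
  [Algebra k[X] F] [IsScalarTower k k[X] F] [IsFF k F]

/-- `Lam` is the integral closure of `k[X]` (version for an abstract `k[X]`-algebra structure). -/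
theorem mem_Lam_iff_isIntegral (E : Type*) [Field E] [Algebra k[X] E] [IsFractionRing k[X] E]
    [Algebra E F] [IsScalarTower k[X] E F] [FiniteDimensional E F] [Algebra.IsSeparable E F]
    (f : F) : f ∈ Lam k (algebraMap k[X] F X) ↔ IsIntegral k[X] f := by
  sorry

/-- A reduced basis of the integral closure of `k[X]`, as an `E`-basis of `F`. -/
theorem exists_reduced_basis_Lam (E : Type*) [Field E] [Algebra k[X] E] [IsFractionRing k[X] E]
    [Algebra E F] [IsScalarTower k[X] E F] [FiniteDimensional E F] [Algebra.IsSeparable E F] :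
    ∃ (b : Basis (Fin (finrank E F)) E F) (lam : Fin (finrank E F) → ℤ),
      (∀ f : F, f ∈ Lam k (algebraMap k[X] F X) ↔
        ∃ c : Fin (finrank E F) → k[X], f = ∑ i, c i • b i) ∧
      ∀ (c : Fin (finrank E F) → k[X]) (m : ℤ),
        (∑ i, c i • b i) ∈ Winf k (algebraMap k[X] F X) m ↔
          ∀ i, c i ∈ degreeLT k (m - lam i + 1).toNat := by
  sorry

end Fermat.Agent.GAL.FF.RH
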