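import Mathlib

/-!
# RH leaf A4b: the trace dual of the `k[X]`-span of a basis is the span of the dual basis
-/

set_option autoImplicit false

namespace Fermat.Agent.GAL.FF.RH

open Polynomial Module

variable {k E F : Type*} [Field k] [Field E] [Field F]
  [Algebra k[X] E] [IsFractionRing k[X] E] [Algebra E F] [Algebra k[X] F] [IsScalarTower k[X] E F]
  [FiniteDimensional E F] [Algebra.IsSeparable E F]

/-- The trace dual of the `k[X]`-span of an `E`-basis is the span of the dual basis. -/
theorem forall_trace_mem_range_iff {n : ℕ} (b : Basis (Fin n) E F) (g : F) :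
    (∀ c : Fin n → k[X], algebraMap E F (Algebra.trace E F (g * ∑ i, c i • b i)) ∈
        (algebraMap k[X] F).range) ↔
      ∃ c : Fin n → k[X],
        g = ∑ i, c i • (Algebra.traceForm E F).dualBasis (traceForm_nondegenerate E F) b i := by
  sorry

end Fermat.Agent.GAL.FF.RH
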