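import Fermat.Agent.GAL.FF.DW.Lattice1
import Fermat.Agent.GAL.FF.DW.Lattice2
import Fermat.Agent.GAL.FF.DW.Count
import Fermat.Agent.GAL.FF.DW.DualFilt

/-!
# RH leaf A4c: the two dimension formulas for an abstract `k[X]`-algebra structure on `F`
-/

set_option autoImplicit false

namespace Fermat.Agent.GAL.FF.RH

open AlgebraicCurve Polynomial IntermediateField WithZero Module
open Fermat.Agent.Lib.RR

variable {k F : Type*} [Field k] [IsAlgClosed k] [Field F] [Algebra k F]
  [Algebra k[X] F] [IsScalarTower k k[X] F] [IsFF k F]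

/-- The two dimension formulas, for an abstract `k[X]`-algebra structure. -/
theorem exists_lambda_aux (E : Type*) [Field E] [Algebra k[X] E] [IsFractionRing k[X] E]
    [Algebra E F] [IsScalarTower k[X] E F] [FiniteDimensional E F] [Algebra.IsSeparable E F] :
    ∃ lam : Fin (finrank E F) → ℤ, ∀ (m : ℤ) (S S' : Submodule k F),
      (∀ f, f ∈ S ↔ f ∈ Lam k (algebraMap k[X] F X) ∧ f ∈ Winf k (algebraMap k[X] F X) m) →
      (∀ g, g ∈ S' ↔
        (∀ f ∈ Lam k (algebraMap k[X] F X),
          algebraMap E F (Algebra.trace E F (g * f)) ∈ (algebraMap k[X] F).range) ∧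
        (∀ f ∈ Winf k (algebraMap k[X] F X) 0,
          algebraMap E F (Algebra.trace E F (g * f)) ∈ Winf k (algebraMap k[X] F X) m)) →
      finrank k S = ∑ i, (m - lam i + 1).toNat ∧ finrank k S' = ∑ i, (m + lam i + 1).toNat := by
  sorry

end Fermat.Agent.GAL.FF.RH
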