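import Fermat.Agent.GAL.FF.DW.Lam
import Fermat.Agent.GAL.FF.DW.LamInt

/-!
# RH leaf C: localisation at `x = ∞` of the trace dual of the chart `y = 1/x ≠ ∞`
-/

set_option autoImplicit false

namespace Fermat.Agent.GAL.FF.RH

open AlgebraicCurve Polynomial IntermediateField WithZero Module

variable {k F : Type*} [Field k] [IsAlgClosed k] [Field F] [Algebra k F]

/-- Clearing the poles of `h` outside `y = 0` by a polynomial in `y` not vanishing at `0`. -/
theorem exists_aeval_mul_regular (y : F) (hy : Transcendental k y) [FiniteDimensional k⟮y⟯ F]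
    [Algebra.IsSeparable k⟮y⟯ F] (h : F) :
    ∃ s : k[X], s.eval 0 ≠ 0 ∧ ∀ P : Place k F, P.ord y = 0 → P.adicValuation (aeval y s * h) ≤ 1 := by
  sorry

/-- An element of `k(y)` which is regular at one zero of `y` has a denominator prime to `y`. -/
theorem exists_aeval_mul_mem_range (y : F) (hy : Transcendental k y) {r : F} (hr : r ∈ k⟮y⟯)
    (P : Place k F) (hP : 0 < P.ord y) (hrP : P.adicValuation r ≤ 1) :
    ∃ s : k[X], s.eval 0 ≠ 0 ∧ aeval y s * r ∈ (aeval y : k[X] →ₐ[k] F).range := by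
  sorry

/-- A polynomial in `y` with non zero constant term is a unit at the zeros of `y`. -/
theorem adicValuation_aeval_eq_one (y : F) (P : Place k F) (hP : 0 < P.ord y) {s : k[X]}
    (hs : s.eval 0 ≠ 0) : P.adicValuation (aeval y s) = 1 := by
  sorry

/-- **Localisation.** If `d` describes the trace dual of the chart `1/x ≠ ∞`, it describes the
trace dual of `B_∞`. -/
theorem mem_WinfDual_zero_iff (x : F) (hx : Transcendental k x) [FiniteDimensional k⟮x⟯ F]
    [Algebra.IsSeparable k⟮x⟯ F] (d : Place k F → ℕ)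
    (hd : ∀ g : F, g ∈ LamDual k x⁻¹ ↔
      ∀ P : Place k F, 0 ≤ P.ord x⁻¹ → P.adicValuation g ≤ exp ((d P : ℕ) : ℤ)) (g : F) :
    g ∈ WinfDual k x 0 ↔
      ∀ P : Place k F, P.ord x < 0 → P.adicValuation g ≤ exp ((d P : ℕ) : ℤ) := by
  sorry

/-- Twisting by powers of `x`. -/
theorem mem_WinfDual_iff_valuation (x : F) (hx : Transcendental k x) [FiniteDimensional k⟮x⟯ F]
    [Algebra.IsSeparable k⟮x⟯ F] (d : Place k F → ℕ)
    (hd : ∀ g : F, g ∈ LamDual k x⁻¹ ↔
      ∀ P : Place k F, 0 ≤ P.ord x⁻¹ → P.adicValuation g ≤ exp ((d P : ℕ) : ℤ)) (g : F) (m : ℤ) :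
    g ∈ WinfDual k x m ↔
      ∀ P : Place k F, P.ord x < 0 → P.adicValuation g ≤ exp ((d P : ℕ) - m * P.ord x) := by
  sorry

end Fermat.Agent.GAL.FF.RH
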