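import Fermat.Agent.GAL.FF.DW.Lattice
import Fermat.Agent.GAL.FF.DW.Chart
import Fermat.Agent.GAL.FF.DW.Loc

/-!
# RH: Riemann-Hurwitz over `k(x)` for `genusFF`, any characteristic
-/

set_option autoImplicit false

namespace Fermat.Agent.GAL.FF.RH

open AlgebraicCurve Polynomial IntermediateField WithZero Module
open Fermat.Agent.Lib.RR Fermat.Agent.S24

variable {k F : Type*} [Field k] [IsAlgClosed k] [Field F] [Algebra k F]

omit [IsAlgClosed k] in
/-- `L(R + m D_∞)` in terms of conditions on the two charts. -/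
theorem Main_mem_L_iff (x : F) (R Dinf : Divisor k F) (hD : ∀ P, Dinf P = max 0 (-P.ord x)) (m : ℤ)
    (g : F) :
    g ∈ riemannRochSpace (R + m • Dinf) ↔
      (∀ P : Place k F, 0 ≤ P.ord x → P.adicValuation g ≤ exp (R P)) ∧
      (∀ P : Place k F, P.ord x < 0 → P.adicValuation g ≤ exp (R P - m * P.ord x)) := by
  have key : ∀ P : Place k F, (R + m • Dinf) P = R P + m * max 0 (-P.ord x) := by
    intro P
    rw [Finsupp.add_apply, Finsupp.smul_apply, hD, smul_eq_mul]
  constructor
  · intro h
    refine ⟨fun P hP => ?_, fun P hP => ?_⟩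
    · have := h P
      rwa [key, max_eq_left (by omega), mul_zero, add_zero] at this
    · have := h P
      rwa [key, max_eq_right (by omega), mul_neg, ← sub_eq_add_neg] at this
  · rintro ⟨h1, h2⟩ P
    show P.adicValuation g ≤ exp ((R + m • Dinf) P)
    rw [key]
    by_cases hP : 0 ≤ P.ord x
    · rw [max_eq_left (by omega), mul_zero, add_zero]
      exact h1 P hP
    · rw [max_eq_right (by omega), mul_neg, ← sub_eq_add_neg]
      exact h2 P (by omega)

/-- The arithmetic at the end of the proof. -/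
theorem Main_arith {n : ℕ} (lam : Fin n → ℤ) (g degR m a b : ℤ)
    (hm : ∀ i, |lam i| ≤ m)
    (ha : a = ∑ i, (((m - lam i + 1).toNat : ℕ) : ℤ)) (hb : b = ∑ i, (((m + lam i + 1).toNat : ℕ) : ℤ))
    (ha' : a = m * n + 1 - g) (hb' : b = degR + m * n + 1 - g) :
    2 * g - 2 = -2 * (n : ℤ) + degR := by
  have h1 : a = ∑ i, (m - lam i + 1) := by
    rw [ha]
    refine Finset.sum_congr rfl fun i _ => ?_
    have := hm i
    rw [abs_le] at this
    exact Int.toNat_of_nonneg (by omega)
  have h2 : b = ∑ i, (m + lam i + 1) := by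
    rw [hb]
    refine Finset.sum_congr rfl fun i _ => ?_
    have := hm i
    rw [abs_le] at this
    exact Int.toNat_of_nonneg (by omega)
  have h3 : a + b = 2 * (n : ℤ) * (m + 1) := by
    rw [h1, h2, ← Finset.sum_add_distrib]
    have : ∀ i : Fin n, (m - lam i + 1) + (m + lam i + 1) = 2 * (m + 1) := fun i => by ring
    simp only [this, Finset.sum_const, Finset.card_univ, Fintype.card_fin, nsmul_eq_mul]
    ring
  rw [ha', hb'] at h3
  linarith

/-- **Riemann-Hurwitz over `k(x)`** (`k` algebraically closed of any characteristic, `F / k(x)`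
finite separable): there are different exponents `d P` with
`2 g - 2 = - 2 [F : k(x)] + ∑ d P`, `d P ≥ e P - 1`, and `d P = e P - 1` if `e P ≠ 0` in `k`. -/
theorem riemann_hurwitz (x : F) (hx : Transcendental k x) [FiniteDimensional k⟮x⟯ F]
    [Algebra.IsSeparable k⟮x⟯ F] :
    ∃ d : Place k F →₀ ℕ,
      (2 * (genusFF k F : ℤ) - 2 = -2 * (finrank k⟮x⟯ F : ℤ) + ∑ P ∈ d.support, (d P : ℤ)) ∧
      (∀ (P : Place k F) (c : k), 0 < P.ord (x - algebraMap k F c) →
        P.ord (x - algebraMap k F c) - 1 ≤ d P ∧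
        ((((P.ord (x - algebraMap k F c)).toNat : ℕ) : k) ≠ 0 →
          (d P : ℤ) = P.ord (x - algebraMap k F c) - 1)) ∧
      (∀ P : Place k F, P.ord x < 0 →
        - P.ord x - 1 ≤ d P ∧
        ((((- P.ord x).toNat : ℕ) : k) ≠ 0 → (d P : ℤ) = - P.ord x - 1)) := by
  classical
  have hFF : IsFF k F := isFF_of_separable x hx
  have hy : Transcendental k x⁻¹ := transcendental_inv hx
  have hfd := finiteDimensional_adjoin_inv (k := k) x
  have hsep := isSeparable_adjoin_inv (k := k) x
  have hdeg := place_deg_eq_one_sep x hx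
  obtain ⟨d0, hfin0, hdual0, hb0⟩ := exists_dexp x hx
  obtain ⟨d1, -, hdual1, hb1⟩ := exists_dexp x⁻¹ hy
  obtain ⟨lam, hlam⟩ := exists_lambda x hx
  obtain ⟨Z1, hZ1, hs1⟩ := exists_finset_zeros_sep x⁻¹ hy
  have hZ1' : ∀ P, P ∈ Z1 ↔ P.ord x < 0 := by
    intro P
    rw [hZ1, P.ord_inv]
    omega
  -- the pole divisor of `x`
  let Dinf : Divisor k F := Finsupp.onFinset Z1 (fun v => max 0 (-v.ord x)) (by
    intro v hv
    rw [hZ1']
    by_contra hcon
    exact hv (max_eq_left (by omega)))
  have hDinf : ∀ P, Dinf P = max 0 (-P.ord x) := fun P => rfl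
  have hdegD : Divisor.degree Dinf = (finrank k⟮x⟯ F : ℤ) := by
    rw [degree_eq_sum_of_deg_one hdeg Dinf Z1 Finsupp.support_onFinset_subset]
    have : ∑ v ∈ Z1, Dinf v = ∑ v ∈ Z1, v.ord x⁻¹ := by
      refine Finset.sum_congr rfl fun v hv => ?_
      have h1 := (hZ1' v).1 hv
      rw [v.ord_inv, hDinf]
      exact max_eq_right (by omega)
    rw [this, hs1, adjoin_inv_eq]
  -- the different exponents
  let d : Place k F →₀ ℕ := Finsupp.onFinset (hfin0.toFinset ∪ Z1)
    (fun P => if 0 ≤ P.ord x then d0 P else d1 P) (by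
    intro P hP
    rw [Finset.mem_union, Set.Finite.mem_toFinset, hZ1']
    by_cases h : 0 ≤ P.ord x
    · left
      rw [if_pos h] at hP
      exact ⟨h, hP⟩
    · right
      omega)
  have hd0 : ∀ P : Place k F, 0 ≤ P.ord x → d P = d0 P := fun P hP => if_pos hP
  have hd1 : ∀ P : Place k F, P.ord x < 0 → d P = d1 P := fun P hP => if_neg (by omega)
  let R : Divisor k F := d.mapRange (fun a : ℕ => (a : ℤ)) rfl
  have hR : ∀ P, R P = (d P : ℤ) := fun P => rfl
  have hdegR : Divisor.degree R = ∑ P ∈ d.support, (d P : ℤ) := by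
    rw [degree_eq_sum_of_deg_one hdeg R d.support Finsupp.support_mapRange]
    rfl
  have hdegR0 : 0 ≤ Divisor.degree R := by
    rw [hdegR]
    exact Finset.sum_nonneg fun P _ => by positivity
  refine ⟨d, ?_, ?_, ?_⟩
  · -- the genus formula
    have hL1 : ∀ m : ℤ, riemannRochSpace (m • Dinf) = Lam k x ⊓ Winf k x m := by
      intro m
      ext f
      have := Main_mem_L_iff x 0 Dinf hDinf m f
      rw [zero_add] at this
      rw [this, Submodule.mem_inf, mem_Lam_iff, mem_Winf_iff]
      simp only [Finsupp.coe_zero, Pi.zero_apply, exp_zero, zero_sub]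
    have hL2 : ∀ m : ℤ, riemannRochSpace (R + m • Dinf) = LamDual k x ⊓ WinfDual k x m := by
      intro m
      ext g
      rw [Main_mem_L_iff x R Dinf hDinf m g, Submodule.mem_inf, hdual0,
        mem_WinfDual_iff_valuation x hx d1 hdual1]
      refine and_congr ?_ ?_
      · refine forall_congr' fun P => imp_congr_right fun hP => ?_
        rw [hR, hd0 P hP]
      · refine forall_congr' fun P => imp_congr_right fun hP => ?_
        rw [hR, hd1 P hP]
    have hnpos : 0 < finrank k⟮x⟯ F := Module.finrank_pos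
    set g : ℤ := (genusFF k F : ℤ) with hg
    set m : ℤ := (∑ i, |lam i|) + 2 * g with hm
    have hg0 : 0 ≤ g := by positivity
    have hm1 : ∀ i, |lam i| ≤ m := by
      intro i
      have : |lam i| ≤ ∑ i, |lam i| :=
        Finset.single_le_sum (f := fun i => |lam i|) (fun j _ => abs_nonneg _) (Finset.mem_univ i)
      omega
    have hm2 : 2 * g ≤ m := by
      have : 0 ≤ ∑ i, |lam i| := Finset.sum_nonneg fun j _ => abs_nonneg _
      omega
    have hmn : 2 * g ≤ m * (finrank k⟮x⟯ F : ℤ) := by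
      have h1 : (1 : ℤ) ≤ (finrank k⟮x⟯ F : ℤ) := by exact_mod_cast hnpos
      nlinarith
    have hdeg1 : Divisor.degree (m • Dinf) = m * (finrank k⟮x⟯ F : ℤ) := by
      rw [map_zsmul, hdegD, smul_eq_mul]
    have e1 := ell_eq_of_lt_degree' (D := m • Dinf) (by rw [hdeg1]; omega)
    have e2 := ell_eq_of_lt_degree' (D := R + m • Dinf) (by rw [map_add, hdeg1]; omega)
    rw [hdeg1] at e1
    rw [map_add, hdeg1] at e2
    have f1 : (ell (m • Dinf) : ℤ) = ∑ i, (((m - lam i + 1).toNat : ℕ) : ℤ) := by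
      unfold ell
      rw [hL1 m, (hlam m).1]
      push_cast
      rfl
    have f2 : (ell (R + m • Dinf) : ℤ) = ∑ i, (((m + lam i + 1).toNat : ℕ) : ℤ) := by
      unfold ell
      rw [hL2 m, (hlam m).2]
      push_cast
      rfl
    rw [← hdegR]
    exact Main_arith lam g (Divisor.degree R) m _ _ hm1 f1 f2 e1 e2
  · intro P c hP
    have hne : x - algebraMap k F c ≠ 0 := by
      intro h
      rw [h, P.ord_zero] at hP
      exact lt_irrefl _ hP
    have hmem : x ∈ P.toValuationSubring := by
      have h1 := mem_of_ord_nonneg P hne hP.le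
      have h2 := P.algebraMap_mem' c
      have := add_mem h1 h2
      rwa [sub_add_cancel] at this
    rw [hd0 P (ord_nonneg_of_mem P hmem)]
    exact hb0 P c hP
  · intro P hP
    have h := hb1 P 0
    rw [map_zero, sub_zero, P.ord_inv] at h
    rw [hd1 P hP]
    exact h (by omega)

end Fermat.Agent.GAL.FF.RH
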